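import Fermat.Agent.S56.GW.Dual.Seams2

/-!
# S56 / [GW-DUAL]: the finite-level dictionary and the seams of the global block (prefix `s56gd_`)

* plain levels `a ≥ K0`: `s56gd_ra : Γ_a →* Δ₀`, the lattices `s56gd_Ra`, `s56gd_Fa`, the module
  `s56gd_Aa` (`= M'`) over `Γ_a`, `s56gd_ia : R ⟶ F`, `s56gd_pa : F ⟶ M'`;
* `s56gd_lamt` : a `D_q(a)`-equivariant `t : R → X_q(a)` as an element of `Hom_{G_q}(R, (ℚ̄_q)ˣ)`,
  `s56gd_exists_lamt` : every element of `Hom_{G_q}(R, (ℚ̄_q)ˣ)` is of this form at EVERY level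
  `a ≥ K0`;
* the seams of the global block: `s56gd_DL_stmt` (local dictionary), `s56gd_DictY`,
  `s56gd_Y1_stmt`, `s56gd_Y2_stmt` (Y-side), `s56gd_X1_stmt`, `s56gd_X2_stmt` (X-side).
-/

set_option autoImplicit false
set_option linter.unusedSectionVars false

open CategoryTheory groupCohomology ExtCitation

namespace Fermat.Agent.S56

open Fermat.Agent.S55

local notation "Qbar" => AlgebraicClosure ℚ
local notation "GQ" => (AlgebraicClosure ℚ ≃ₐ[ℚ] AlgebraicClosure ℚ)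

noncomputable section

/-! ## Restriction maps between plain levels -/

namespace s56gd_Fld

theorem q_surjective (a : s56gd_Fld) : Function.Surjective a.q :=
  tl_restrictNormalHom_surjective a.L

theorem ker_q (a : s56gd_Fld) : a.q.ker = a.L.fixingSubgroup :=
  tl_ker_restrictNormalHom a.L

theorem q_eq_one_iff (a : s56gd_Fld) (σ : GQ) : a.q σ = 1 ↔ σ ∈ a.L.fixingSubgroup := by
  rw [← ker_q, MonoidHom.mem_ker]

theorem ker_q_le {a b : s56gd_Fld} (h : a ≤ b) : b.q.ker ≤ a.q.ker := by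
  rw [ker_q, ker_q]
  exact IntermediateField.fixingSubgroup_antitone h

/-- The restriction `Γ_b → Γ_a` for `a ≤ b`. -/
def res {a b : s56gd_Fld} (h : a ≤ b) : b.Γ →* a.Γ :=
  (QuotientGroup.lift b.q.ker a.q (ker_q_le h)).comp
    (QuotientGroup.quotientKerEquivOfSurjective b.q b.q_surjective).symm.toMonoidHom

@[simp] theorem res_q {a b : s56gd_Fld} (h : a ≤ b) (σ : GQ) : res h (b.q σ) = a.q σ := by
  have h1 : (QuotientGroup.quotientKerEquivOfSurjective b.q b.q_surjective).symm (b.q σ) =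
      (QuotientGroup.mk σ : GQ ⧸ b.q.ker) := by
    rw [MulEquiv.symm_apply_eq]
    rfl
  show QuotientGroup.lift b.q.ker a.q (ker_q_le h)
    ((QuotientGroup.quotientKerEquivOfSurjective b.q b.q_surjective).symm (b.q σ)) = a.q σ
  rw [h1]
  rfl

theorem res_surjective {a b : s56gd_Fld} (h : a ≤ b) : Function.Surjective (res h) := by
  intro g
  obtain ⟨σ, rfl⟩ := a.q_surjective g
  exact ⟨b.q σ, res_q h σ⟩

theorem res_res {a b c : s56gd_Fld} (h : a ≤ b) (h' : b ≤ c) (g : c.Γ) :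
    res h (res h' g) = res (le_trans (α := IntermediateField ℚ Qbar) h h') g := by
  obtain ⟨σ, rfl⟩ := c.q_surjective g
  rw [res_q, res_q, res_q]

end s56gd_Fld

/-! ## The lattice resolution over a plain level `a ≥ K0` -/

section Plain

variable {p : ℕ} [Fact p.Prime] (M : Rep.{0} (ZMod p) GQ) [FiniteDimensional (ZMod p) M]
  (hsm : s56gw_Smooth M) (a : s56gd_Fld) (ha : s56gd_K0 M hsm ≤ a)

/-- `Γ_a → Δ₀`. -/
def s56gd_ra : a.Γ →* (s56gd_K0 M hsm).Γ := s56gd_Fld.res ha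

theorem s56gd_ra_q (σ : GQ) : s56gd_ra M hsm a ha (a.q σ) = s56gd_pi0 M hsm σ :=
  s56gd_Fld.res_q ha σ

/-- The relation lattice over `Γ_a`. -/
abbrev s56gd_Ra : Rep.{0} ℤ a.Γ := Rep.res (s56gd_ra M hsm a ha) (s56gd_R M hsm)

/-- The permutation lattice over `Γ_a`. -/
abbrev s56gd_Fa : Rep.{0} ℤ a.Γ := Rep.res (s56gd_ra M hsm a ha) (s56gd_F M hsm)

/-- `M' = M^*(1)` over `Γ_a`. -/
abbrev s56gd_Aa : Rep.{0} ℤ a.Γ := Rep.res (s56gd_ra M hsm a ha) (s56gd_A M hsm)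

/-- The inclusion `R ⟶ F` over `Γ_a`. -/
abbrev s56gd_ia : s56gd_Ra M hsm a ha ⟶ s56gd_Fa M hsm a ha :=
  (Rep.resFunctor (s56gd_ra M hsm a ha)).map (la_ι (s56gd_A M hsm))

/-- The augmentation `F ⟶ M'` over `Γ_a`. -/
abbrev s56gd_pa : s56gd_Fa M hsm a ha ⟶ s56gd_Aa M hsm a ha :=
  (Rep.resFunctor (s56gd_ra M hsm a ha)).map (la_π (s56gd_A M hsm))

theorem s56gd_finite_A : Finite (s56gd_A M hsm).V :=
  dm_finite_A M (s56gd_A M hsm) (s56gd_e M hsm)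

theorem s56gd_isLattice_Ra : ld_IsLattice (s56gd_Ra M hsm a ha) :=
  haveI := s56gd_finite_A M hsm
  la_free_R (s56gd_A M hsm)

theorem s56gd_isLattice_Fa : ld_IsLattice (s56gd_Fa M hsm a ha) :=
  haveI := s56gd_finite_A M hsm
  la_free_F (s56gd_A M hsm)

variable (q : Nat.Primes)

/-- The action of `G_q` on `R` through `D_q(a)`. -/
theorem s56gd_Rl_smul (τ : primeLocalGaloisGroup q) (r : s56gd_Rl M hsm q) :
    τ • r = (tt_res (s56gd_D q a) (s56gd_Ra M hsm a ha)).ρ (s56gd_locq q a τ) r := by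
  rw [dm_Yl_smul]
  show _ = (s56gd_R M hsm).ρ (s56gd_ra M hsm a ha (a.q (primeLocalToGlobal q τ))) r
  rw [s56gd_ra_q]

/-- **A `D_q(a)`-equivariant homomorphism `t : R → X_q(a)` as an element of
`Hom_{G_q}(R, (ℚ̄_q)ˣ)`.** -/
def s56gd_lamt (t : tt_res (s56gd_D q a) (s56gd_Ra M hsm a ha) ⟶ s56gd_X q a) :
    lvH0 (G := primeLocalGaloisGroup q) (s56gd_TRl M hsm q) :=
  ⟨LvHom.of ((il_lam q a.L).comp (ab_homAdd t)), by
    rw [LvHom.mem_lvH0_iff]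
    intro τ r
    show il_lam q a.L (t.hom (τ • r)) = τ • il_lam q a.L (t.hom r)
    rw [s56gd_Rl_smul M hsm a ha q τ r]
    have h1 : t.hom ((tt_res (s56gd_D q a) (s56gd_Ra M hsm a ha)).ρ (s56gd_locq q a τ) r) =
        (s56gd_X q a).ρ (s56gd_locq q a τ) (t.hom r) := Rep.hom_comm_apply t _ _
    rw [h1]
    exact il_lam_equiv q a.L τ (s56gd_locq q a τ) rfl _⟩

theorem s56gd_lamt_apply (t : tt_res (s56gd_D q a) (s56gd_Ra M hsm a ha) ⟶ s56gd_X q a)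
    (r : (s56gd_R M hsm).V) :
    (s56gd_lamt M hsm a ha q t : s56gd_TRl M hsm q) r = il_lam q a.L (t.hom r) := rfl

/-- **(L)**: every element of `Hom_{G_q}(R, (ℚ̄_q)ˣ)` comes from `Hom_{D_q(a)}(R, X_q(a))`, at EVERY
plain level `a ≥ K0` (its values are fixed by the kernel of `G_q → Δ₀`). -/
theorem s56gd_exists_lamt (t : lvH0 (G := primeLocalGaloisGroup q) (s56gd_TRl M hsm q)) :
    ∃ t' : tt_res (s56gd_D q a) (s56gd_Ra M hsm a ha) ⟶ s56gd_X q a,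
      s56gd_lamt M hsm a ha q t' = t := by
  have ht : ∀ (τ : primeLocalGaloisGroup q) (r : s56gd_Rl M hsm q),
      (t : s56gd_TRl M hsm q) (τ • r) = τ • (t : s56gd_TRl M hsm q) r :=
    (LvHom.mem_lvH0_iff (t : s56gd_TRl M hsm q)).1 t.2
  have hex : ∀ r : s56gd_Rl M hsm q, ∃ x : (s56gd_X q a).V,
      il_lam q a.L x = (t : s56gd_TRl M hsm q) r := by
    intro r
    refine il_lam_range q a.L _ (fun τ hτ => ?_)
    have h1 : τ • r = r := by
      rw [s56gd_Rl_smul M hsm a ha q τ r]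
      have h2 : s56gd_locq q a τ = 1 := Subtype.ext hτ
      rw [h2, map_one]
      rfl
    rw [← ht τ r, h1]
  choose f hf using hex
  have hinj := il_lam_injective q a.L
  let fa : (s56gd_R M hsm).V →+ (s56gd_X q a).V :=
    { toFun := fun r => f (tl_toAct _ r)
      map_zero' := hinj (by
        rw [hf, map_zero]
        exact map_zero (t : s56gd_TRl M hsm q))
      map_add' := fun r r' => hinj (by
        rw [(il_lam q a.L).map_add, hf, hf, hf]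
        exact map_add (t : s56gd_TRl M hsm q) _ _) }
  have hfa : ∀ (d : ↥(s56gd_D q a)) (r : (s56gd_R M hsm).V),
      fa ((tt_res (s56gd_D q a) (s56gd_Ra M hsm a ha)).ρ d r) = (s56gd_X q a).ρ d (fa r) := by
    intro d r
    obtain ⟨τ, rfl⟩ := s56gd_locq_surjective q a d
    apply hinj
    show il_lam q a.L (f _) = il_lam q a.L ((s56gd_X q a).ρ (s56gd_locq q a τ) (f _))
    rw [hf, il_lam_equiv q a.L τ (s56gd_locq q a τ) rfl, hf]
    have h3 := ht τ (tl_toAct _ r)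
    rw [s56gd_Rl_smul M hsm a ha q τ] at h3
    exact h3
  refine ⟨la_ofAddHom fa hfa, ?_⟩
  apply Subtype.ext
  refine LvHom.ext fun r => ?_
  exact hf r

/-! ### The finite-level sequences `0 → R → F → M' → 0` -/

theorem s56gd_pa_exact (f : (s56gd_F M hsm).V) :
    (la_π (s56gd_A M hsm)).hom f = 0 ↔
      ∃ r : (s56gd_R M hsm).V, (la_ι (s56gd_A M hsm)).hom r = f := by
  constructor
  · exact fun hf => dm_la_exact (s56gd_A M hsm) hf
  · rintro ⟨r, rfl⟩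
    exact dm_la_π_ι (s56gd_A M hsm) r

/-- `0 → R → F → M' → 0` over `Γ_a`. -/
def s56gd_LgloA : LvSES a.Γ (tl_Act (s56gd_Ra M hsm a ha)) (tl_Act (s56gd_Fa M hsm a ha))
    (tl_Act (s56gd_Aa M hsm a ha)) where
  i := sl_actMap (s56gd_ia M hsm a ha)
  π := sl_actMap (s56gd_pa M hsm a ha)
  i_equiv g r := sl_actMap_smul (s56gd_ia M hsm a ha) g r
  π_equiv g f := sl_actMap_smul (s56gd_pa M hsm a ha) g f
  i_inj := dm_la_ι_injective (s56gd_A M hsm)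
  π_surj := la_π_surjective (s56gd_A M hsm)
  exact := s56gd_pa_exact M hsm

/-- `0 → R → F → M' → 0` over `D_q(a)`. -/
def s56gd_LlocA : LvSES ↥(s56gd_D q a) (tl_Act (tt_res (s56gd_D q a) (s56gd_Ra M hsm a ha)))
    (tl_Act (tt_res (s56gd_D q a) (s56gd_Fa M hsm a ha)))
    (tl_Act (tt_res (s56gd_D q a) (s56gd_Aa M hsm a ha))) where
  i := sl_actMap ((Rep.resFunctor (s56gd_D q a).subtype).map (s56gd_ia M hsm a ha))
  π := sl_actMap ((Rep.resFunctor (s56gd_D q a).subtype).map (s56gd_pa M hsm a ha))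
  i_equiv g r := sl_actMap_smul
    ((Rep.resFunctor (s56gd_D q a).subtype).map (s56gd_ia M hsm a ha)) g r
  π_equiv g f := sl_actMap_smul
    ((Rep.resFunctor (s56gd_D q a).subtype).map (s56gd_pa M hsm a ha)) g f
  i_inj := dm_la_ι_injective (s56gd_A M hsm)
  π_surj := la_π_surjective (s56gd_A M hsm)
  exact := s56gd_pa_exact M hsm

/-- `δ¹ : H¹(Γ_a, M') → H²(Γ_a, R)` (finite level, level cohomology). -/
def s56gd_d1G : lvH1 (LevelSys.trivial a.Γ) (tl_Act (s56gd_Aa M hsm a ha)) →+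
    lvH2 (LevelSys.trivial a.Γ) (tl_Act (s56gd_Ra M hsm a ha)) :=
  (s56gd_LgloA M hsm a ha).δ1 (LevelSys.trivial a.Γ) (sl_isSmooth_trivial _)

/-- `δ¹ : H¹(D_q(a), M') → H²(D_q(a), R)` (finite level, level cohomology). -/
def s56gd_d1A : lvH1 (LevelSys.trivial ↥(s56gd_D q a))
      (tl_Act (tt_res (s56gd_D q a) (s56gd_Aa M hsm a ha))) →+
    lvH2 (LevelSys.trivial ↥(s56gd_D q a))
      (tl_Act (tt_res (s56gd_D q a) (s56gd_Ra M hsm a ha))) :=
  (s56gd_LlocA M hsm a ha q).δ1 (LevelSys.trivial _) (sl_isSmooth_trivial _)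

/-- Level cohomology of the finite group `D_q(a)` is Mathlib's group cohomology. -/
def s56gd_toH2A : lvH2 (LevelSys.trivial ↥(s56gd_D q a))
      (tl_Act (tt_res (s56gd_D q a) (s56gd_Ra M hsm a ha))) ≃+
    groupCohomology (tt_res (s56gd_D q a) (s56gd_Ra M hsm a ha)) 2 :=
  lvH2Equiv (tt_res (s56gd_D q a) (s56gd_Ra M hsm a ha)) (tl_sf_actEquiv _) (fun _ _ => rfl)

/-- Level cohomology of the finite group `Γ_a` is Mathlib's group cohomology. -/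
def s56gd_toH2G : lvH2 (LevelSys.trivial a.Γ) (tl_Act (s56gd_Ra M hsm a ha)) ≃+
    groupCohomology (s56gd_Ra M hsm a ha) 2 :=
  lvH2Equiv (s56gd_Ra M hsm a ha) (tl_sf_actEquiv _) (fun _ _ => rfl)

/-- **The finite quotient `D_q(a)` of `G_q` for the module `M'`.** -/
def s56gd_QN' : LvQuot (tl_levelsLoc q) (s56gd_N' M q) ↥(s56gd_D q a)
    (tl_Act (tt_res (s56gd_D q a) (s56gd_Aa M hsm a ha))) where
  q := s56gd_locq q a
  q_surj := s56gd_locq_surjective q a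
  level := ⟨a.L.fixingSubgroup.comap (primeLocalToGlobal q),
    ⟨a.L.fixingSubgroup, ⟨a.L, inferInstance, rfl⟩, rfl⟩,
    fun τ hτ => (s56gd_mem_ker_locq q a τ).2 hτ⟩
  φ := (s56gd_e M hsm).toAddMonoidHom
  φ_inj := (s56gd_e M hsm).injective
  equivariant := fun τ x => by
    show s56gd_e M hsm ((s56gd_A M hsm).ρ
      (s56gd_ra M hsm a ha (a.q (primeLocalToGlobal q τ))) x) = _
    rw [s56gd_ra_q]
    exact s56gd_he M hsm (primeLocalToGlobal q τ) x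
  range_eq := fun x _ => ⟨(s56gd_e M hsm).symm x, (s56gd_e M hsm).apply_symm_apply x⟩

end Plain

/-! ## The seams of the dictionary -/

/-- **SEAM [DL]: the local dictionary.**  For a plain level `a ≥ K0`, a class `w ∈ H¹(D_q(a), M')`
and `t ∈ Hom_{D_q(a)}(R, X_q(a))`:
`B_q(δ⁰(λ ∘ t), infl w) = inv_{q,a}(t_*(δ¹ w))`. -/
def s56gd_DL_stmt : Prop :=
  ∀ (p : ℕ) [Fact p.Prime] (M : Rep.{0} (ZMod p) GQ) [FiniteDimensional (ZMod p) M]
    (hsm : s56gw_Smooth M) (q : Nat.Primes) (I : s56gd_LocInv p q)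
    (a : s56gd_Fld) (ha : s56gd_K0 M hsm ≤ a)
    (w : lvH1 (LevelSys.trivial ↥(s56gd_D q a))
      (tl_Act (tt_res (s56gd_D q a) (s56gd_Aa M hsm a ha))))
    (t : tt_res (s56gd_D q a) (s56gd_Ra M hsm a ha) ⟶ s56gd_X q a),
    s56gd_Bq M hsm q I (s56gd_d0 M hsm q (s56gd_lamt M hsm a ha q t))
        ((s56gd_QN' M hsm a ha q).mor.H1 w) =
      (s56gd_Pq q a p).invTop
        ((tt_coeffMap t 2).hom (s56gd_toH2A M hsm a ha q (s56gd_d1A M hsm a ha q w)))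

/-! ## The seams of the global block -/

section GlobalSeams

variable {p : ℕ} [Fact p.Prime] (M : Rep.{0} (ZMod p) GQ) [FiniteDimensional (ZMod p) M]
  (hsm : s56gw_Smooth M) (S : Finset Nat.Primes)

/-- The relation lattice over `Γ_b`, `b` a level of the seam above `K0`
(`= s56gd_Ra M hsm (s56gd_Fld.ofLev b) hb`, typed over `b.Γ`). -/
abbrev s56gd_Rb (b : du_Lev S) (hb : s56gd_K0 M hsm ≤ s56gd_Fld.ofLev b) : Rep.{0} ℤ b.Γ :=
  s56gd_Ra M hsm (s56gd_Fld.ofLev b) hb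

/-- The permutation lattice over `Γ_b`. -/
abbrev s56gd_Fb (b : du_Lev S) (hb : s56gd_K0 M hsm ≤ s56gd_Fld.ofLev b) : Rep.{0} ℤ b.Γ :=
  s56gd_Fa M hsm (s56gd_Fld.ofLev b) hb

/-- The inclusion `R ⟶ F` over `Γ_b`. -/
abbrev s56gd_ib (b : du_Lev S) (hb : s56gd_K0 M hsm ≤ s56gd_Fld.ofLev b) :
    s56gd_Rb M hsm S b hb ⟶ s56gd_Fb M hsm S b hb :=
  s56gd_ia M hsm (s56gd_Fld.ofLev b) hb

theorem s56gd_isLattice_Rb (b : du_Lev S) (hb : s56gd_K0 M hsm ≤ s56gd_Fld.ofLev b) :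
    ld_IsLattice (s56gd_Rb M hsm S b hb) := s56gd_isLattice_Ra M hsm _ hb

theorem s56gd_isLattice_Fb (b : du_Lev S) (hb : s56gd_K0 M hsm ≤ s56gd_Fld.ofLev b) :
    ld_IsLattice (s56gd_Fb M hsm S b hb) := s56gd_isLattice_Fa M hsm _ hb

/-- `s56gd_DictY I b hb y z`: the class `z ∈ H²(Γ_b, R)` computes the local pairings against
`y ∈ H¹(G_S, M')` at the level `b`: for all `q ∈ S` and `t ∈ Hom_{D_q(b)}(R, X_q(b))`,
`B_q(δ⁰(λ ∘ t), loc_q y) = inv_{q,b}(t_*(res_q z))`. -/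
def s56gd_DictY (I : ∀ q : Nat.Primes, s56gd_LocInv p q) (b : du_Lev S)
    (hb : s56gd_K0 M hsm ≤ s56gd_Fld.ofLev b) (y : s56gd_HS (s56gw_dual M) S)
    (z : groupCohomology (s56gd_Rb M hsm S b hb) 2) : Prop :=
  ∀ (q : ↥S) (t : tt_res (s56gd_D q.1 (s56gd_Fld.ofLev b)) (s56gd_Rb M hsm S b hb) ⟶
      s56gd_X q.1 (s56gd_Fld.ofLev b)),
    s56gd_Bq M hsm q.1 (I q.1)
        (s56gd_d0 M hsm q.1 (s56gd_lamt M hsm (s56gd_Fld.ofLev b) hb q.1 t))
        (s56gd_lvloc (s56gw_dual M) S q.1 y) =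
      (s56gd_Pq q.1 (s56gd_Fld.ofLev b) p).invTop ((tt_coeffMap t 2).hom
        ((tt_resMap (s56gd_D q.1 (s56gd_Fld.ofLev b)) (s56gd_Rb M hsm S b hb) 2).hom z))

end GlobalSeams

/-- **SEAM [Y1]**: every `y ∈ H¹(G_S, M')` is computed, at every sufficiently large level `b`, by a
`p`-primary class `z ∈ ker(i_* : H²(Γ_b, R) → H²(Γ_b, F))`. -/
def s56gd_Y1_stmt : Prop :=
  ∀ (p : ℕ) [Fact p.Prime] (M : Rep.{0} (ZMod p) GQ) [FiniteDimensional (ZMod p) M]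
    (hsm : s56gw_Smooth M) (I : ∀ q : Nat.Primes, s56gd_LocInv p q)
    (S : Finset Nat.Primes), pPrime p ∈ S → s56gw_UnrOut S M →
    ∀ y : s56gd_HS (s56gw_dual M) S,
      ∃ b₀ : du_Lev S, s56gd_K0 M hsm ≤ s56gd_Fld.ofLev b₀ ∧
        ∀ (b : du_Lev S), b₀ ≤ b → ∀ hb : s56gd_K0 M hsm ≤ s56gd_Fld.ofLev b,
          ∃ z : groupCohomology (s56gd_Rb M hsm S b hb) 2,
            tt_IsPPrimary p z ∧
            (tt_coeffMap (s56gd_ib M hsm S b hb) 2).hom z = 0 ∧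
            s56gd_DictY M hsm S I b hb y z

/-- **SEAM [Y2]**: every class of `ker(i_* : H²(Γ_b, R) → H²(Γ_b, F))` computes some
`y ∈ H¹(G_S, M')`. -/
def s56gd_Y2_stmt : Prop :=
  ∀ (p : ℕ) [Fact p.Prime] (M : Rep.{0} (ZMod p) GQ) [FiniteDimensional (ZMod p) M]
    (hsm : s56gw_Smooth M) (I : ∀ q : Nat.Primes, s56gd_LocInv p q)
    (S : Finset Nat.Primes) (b : du_Lev S) (hb : s56gd_K0 M hsm ≤ s56gd_Fld.ofLev b)
    (z : groupCohomology (s56gd_Rb M hsm S b hb) 2),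
    (tt_coeffMap (s56gd_ib M hsm S b hb) 2).hom z = 0 →
      ∃ y : s56gd_HS (s56gw_dual M) S, s56gd_DictY M hsm S I b hb y z

/-- **SEAM [X1]**: every `x ∈ H¹(G_S, M)` is, at some level `b` above any given level `a₀`, the class
of a pair `(ψ, φ_F)`, `ψ_q ∈ Hom_Γ(R, J_q(b))`, `φ_F ∈ Hom_Γ(F, C(b))`, `Σ_q j_q ψ_q = φ_F ∘ i`; its
localisations are `loc_q x = δ⁰(λ ∘ pr_q ∘ res ψ_q)`. -/
def s56gd_X1_stmt : Prop :=
  ∀ (p : ℕ) [Fact p.Prime] (hp2 : p ≠ 2) (M : Rep.{0} (ZMod p) GQ)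
    [FiniteDimensional (ZMod p) M] (hsm : s56gw_Smooth M)
    (S : Finset Nat.Primes) (hpS : pPrime p ∈ S), s56gw_UnrOut S M →
    ∀ (x : s56gd_HS M S) (a₀ : du_Lev S),
      ∃ (b : du_Lev S) (_ : a₀ ≤ b) (hb : s56gd_K0 M hsm ≤ s56gd_Fld.ofLev b)
        (ψ : ∀ q : ↥S, s56gd_Rb M hsm S b hb ⟶ ((s56gd_seam hp2 S hpS).dat b).Jq q)
        (φF : s56gd_Fb M hsm S b hb ⟶ ((s56gd_seam hp2 S hpS).dat b).C),
        (∑ q : ↥S, ψ q ≫ ((s56gd_seam hp2 S hpS).dat b).j q) =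
          s56gd_ib M hsm S b hb ≫ φF ∧
        ∀ q : ↥S, s56gd_lvloc M S q.1 x =
          s56gd_d0 M hsm q.1 (s56gd_lamt M hsm (s56gd_Fld.ofLev b) hb q.1
            ((Rep.resFunctor (((s56gd_seam hp2 S hpS).dat b).D q).subtype).map (ψ q) ≫
              ((s56gd_seam hp2 S hpS).dat b).pr q))

/-- **SEAM [X2]**: a pair `(ψ, φ_F)` at a level `b` with `Σ_q j_q ψ_q = φ_F ∘ i` and `φ_F` landing in
`C°` at some higher level defines a class `x ∈ H¹(G_S, M)` with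
`loc_q x = δ⁰(λ ∘ pr_q ∘ res ψ_q)`. -/
def s56gd_X2_stmt : Prop :=
  ∀ (p : ℕ) [Fact p.Prime] (hp2 : p ≠ 2) (M : Rep.{0} (ZMod p) GQ)
    [FiniteDimensional (ZMod p) M] (hsm : s56gw_Smooth M)
    (S : Finset Nat.Primes) (hpS : pPrime p ∈ S), s56gw_UnrOut S M →
    ∀ (b : du_Lev S) (hb : s56gd_K0 M hsm ≤ s56gd_Fld.ofLev b)
      (ψ : ∀ q : ↥S, s56gd_Rb M hsm S b hb ⟶ ((s56gd_seam hp2 S hpS).dat b).Jq q)
      (φF : s56gd_Fb M hsm S b hb ⟶ ((s56gd_seam hp2 S hpS).dat b).C),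
      (∑ q : ↥S, ψ q ≫ ((s56gd_seam hp2 S hpS).dat b).j q) = s56gd_ib M hsm S b hb ≫ φF →
      φF ∈ du_Cinf (s56gd_seam hp2 S hpS) b (s56gd_Fb M hsm S b hb) →
      ∃ x : s56gd_HS M S, ∀ q : ↥S, s56gd_lvloc M S q.1 x =
        s56gd_d0 M hsm q.1 (s56gd_lamt M hsm (s56gd_Fld.ofLev b) hb q.1
          ((Rep.resFunctor (((s56gd_seam hp2 S hpS).dat b).D q).subtype).map (ψ q) ≫
            ((s56gd_seam hp2 S hpS).dat b).pr q))

end

end Fermat.Agent.S56
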