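import Fermat.Agent.S56.GW.Dual.Seams
import Fermat.Agent.S56.GW.Dual.D3.Count

/-!
# S56 / [GW-DUAL]: cell seams, version 2 (prefix `s56gd_`)

After `D3/Count.lean` (`s56gdlc_dual_of_right`) only finiteness and RIGHT non-degeneracy of the
local pairings are needed.

* `s56gd_LDR_stmt`     : SEAM [D3] v2 (finiteness + right non-degeneracy of `s56gd_Bq`);
* `s56gd_Bridge2_stmt` : SEAM [D4] v2 (a `s56gdlc_RightSys` from [D1], [D3] v2, [D6], [D7]);
* `s56gd_main_of`      : the final assembly of `s56gw_Dual_stmt`.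
-/

set_option autoImplicit false
set_option linter.unusedSectionVars false

open CategoryTheory groupCohomology ExtCitation

namespace Fermat.Agent.S56

open Fermat.Agent.S55

local notation "GQ" => (AlgebraicClosure ℚ ≃ₐ[ℚ] AlgebraicClosure ℚ)

/-- **SEAM [D3] v2: local duality, right half.**  The local `H¹` is finite and `B_q` is
non-degenerate on the right. -/
def s56gd_LDR_stmt : Prop :=
  ∀ (p : ℕ) [Fact p.Prime], p ≠ 2 →
  ∀ (M : Rep.{0} (ZMod p) GQ) [FiniteDimensional (ZMod p) M] (hsm : s56gw_Smooth M)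
    (q : Nat.Primes) (I : s56gd_LocInv p q),
    Finite (s56gd_Hq M q) ∧
    (∀ y : s56gd_Hq (s56gw_dual M) q, (∀ x, s56gd_Bq M hsm q I x y = 0) → y = 0)

/-- **SEAM [D4] v2: the bridge** from level cohomology to the frozen vocabulary. -/
def s56gd_Bridge2_stmt : Prop :=
  s56gd_LocInv_stmt → s56gd_LDR_stmt → s56gd_Rec_stmt → s56gd_ME_stmt →
    ∀ (p : ℕ) [Fact p.Prime], p ≠ 2 →
    ∀ (M : Rep.{0} (ZMod p) GQ) [FiniteDimensional (ZMod p) M],
      s56gw_Smooth M → Nonempty (s56gdlc_RightSys p M)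

/-- **[GW-DUAL] from its cells.** -/
theorem s56gd_main_of (hI : s56gd_LocInv_stmt) (hLD : s56gd_LDR_stmt) (hRec : s56gd_Rec_stmt)
    (hME : s56gd_ME_stmt) (hBr : s56gd_Bridge2_stmt) : s56gw_Dual_stmt :=
  s56gdlc_dual_of_right (hBr hI hLD hRec hME)

end Fermat.Agent.S56
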