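import Fermat.Agent.S56.GW.Dual.Base
import Fermat.Agent.S55.Level.Bridge

/-!
# S56 / [GW-DUAL]: local finite levels, the seam [D1], the local sequences (prefix `s56gd_`)
-/

set_option autoImplicit false

open CategoryTheory groupCohomology ExtCitation

namespace Fermat.Agent.S56

open Fermat.Agent.S55

local notation "Qbar" => AlgebraicClosure ℚ
local notation "GQ" => (AlgebraicClosure ℚ ≃ₐ[ℚ] AlgebraicClosure ℚ)

noncomputable section

/-! ## Part A: local finite levels for plain fields -/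

section LocalLevels

variable (q : Nat.Primes) (a : s56gd_Fld)

/-- The decomposition group `D_q(a) ≤ Γ_a`. -/
abbrev s56gd_D : Subgroup a.Γ := il_D (q : ℕ) a.L

/-- The local module `X_q(a) = (a·ℚ_q)ˣ`. -/
abbrev s56gd_X : Rep.{0} ℤ ↥(s56gd_D q a) := il_Xq q a.L

/-- The surjection `G_q → D_q(a)`. -/
def s56gd_locq : primeLocalGaloisGroup q →* ↥(s56gd_D q a) :=
  MonoidHom.codRestrict ((a.q).comp (primeLocalToGlobal q)) (s56gd_D q a) (fun τ => ⟨τ, rfl⟩)

theorem s56gd_locq_coe (τ : primeLocalGaloisGroup q) :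
    ((s56gd_locq q a τ : ↥(s56gd_D q a)) : a.Γ) = a.q (primeLocalToGlobal q τ) := rfl

theorem s56gd_locq_surjective : Function.Surjective (s56gd_locq q a) := by
  rintro ⟨d, τ, rfl⟩
  exact ⟨τ, rfl⟩

theorem s56gd_mem_ker_locq (τ : primeLocalGaloisGroup q) :
    τ ∈ (s56gd_locq q a).ker ↔ primeLocalToGlobal q τ ∈ a.L.fixingSubgroup := by
  rw [MonoidHom.mem_ker, Subtype.ext_iff, s56gd_locq_coe]
  show AlgEquiv.restrictNormalHom a.L (primeLocalToGlobal q τ) = 1 ↔ _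
  rw [← MonoidHom.mem_ker, tl_ker_restrictNormalHom]

/-- **The finite quotient `D_q(a)` of the local Galois group for `Ω = (ℚ̄_q)ˣ`.** -/
def s56gd_QX : LvQuot (tl_levelsLoc q) (tl_locUnits q) ↥(s56gd_D q a) (tl_Act (s56gd_X q a)) where
  q := s56gd_locq q a
  q_surj := s56gd_locq_surjective q a
  level := ⟨a.L.fixingSubgroup.comap (primeLocalToGlobal q),
    ⟨a.L.fixingSubgroup, ⟨a.L, inferInstance, rfl⟩, rfl⟩,
    fun τ hτ => (s56gd_mem_ker_locq q a τ).2 hτ⟩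
  φ := il_lam q a.L
  φ_inj := il_lam_injective q a.L
  equivariant := fun τ x => il_lam_equiv q a.L τ (s56gd_locq q a τ) rfl x
  range_eq := fun u hu => il_lam_range q a.L u (fun τ hτ => hu τ (by
    rw [MonoidHom.mem_ker, Subtype.ext_iff]
    exact hτ))

variable (p : ℕ) [Fact p.Prime]

/-- **The local `p`-class module of the plain level `a` at `q`** (the same expression as
`id_levPq`, for an arbitrary finite Galois field). -/
def s56gd_Pq : PClassModule p (s56gd_X q a) :=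
  (lq_pclass p (il_Lq (q : ℕ) a.L)).transportGroup (il_galEquiv (q : ℕ) a.L).symm

/-- For a level of the seam this is `id_levPq`. -/
theorem s56gd_Pq_ofLev {S : Finset Nat.Primes} (b : du_Lev S) :
    s56gd_Pq q (s56gd_Fld.ofLev b) p = id_levPq p b q := rfl

/-- Mathlib's `H²(D_q(a), X_q(a))` inside the level cohomology of `G_q`. -/
def s56gd_inflX : groupCohomology (s56gd_X q a) 2 →+ lvH2 (tl_levelsLoc q) (tl_locUnits q) :=
  (s56gd_QX q a).mor.H2.comp
    (lvH2Equiv (s56gd_X q a) (tl_sf_actEquiv (s56gd_X q a)) (fun _ _ => rfl)).symm.toAddMonoidHom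

end LocalLevels

/-! ## Cell [D1]: the limit local invariant -/

/-- **SEAM [D1]**: the invariant map on the `p`-primary part of `H²(G_q, (ℚ̄_q)ˣ)` (level
cohomology), compatible with the invariants of the local `p`-class modules of all plain levels. -/
structure s56gd_LocInv (p : ℕ) [Fact p.Prime] (q : Nat.Primes) where
  inv : ↥(fd_pPrimary p (lvH2 (tl_levelsLoc q) (tl_locUnits q))) →+ AddCircle (1 : ℚ)
  spec : ∀ (a : s56gd_Fld) (w : groupCohomology (s56gd_X q a) 2) (_ : tt_IsPPrimary p w)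
    (h : s56gd_inflX q a w ∈ fd_pPrimary p (lvH2 (tl_levelsLoc q) (tl_locUnits q))),
    inv ⟨s56gd_inflX q a w, h⟩ = (s56gd_Pq q a p).invTop w

/-- **SEAM [D1]** as a Prop. -/
def s56gd_LocInv_stmt : Prop :=
  ∀ (p : ℕ) [Fact p.Prime] (q : Nat.Primes), Nonempty (s56gd_LocInv p q)

/-! ## Part B: the local sequences in level cohomology and the pairing -/

section LvObjects

variable {p : ℕ} [Fact p.Prime] (M : Rep.{0} (ZMod p) GQ) [FiniteDimensional (ZMod p) M]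
  (hsm : s56gw_Smooth M) (q : Nat.Primes)

/-- `π₀ : G_ℚ → Δ₀ = Gal(K0/ℚ)`. -/
abbrev s56gd_pi0 : GQ →* (s56gd_K0 M hsm).Γ := (s56gd_K0 M hsm).q

/-- The lattice `R` of the resolution `0 → R → F → M' → 0`. -/
abbrev s56gd_R : Rep.{0} ℤ (s56gd_K0 M hsm).Γ := la_R (s56gd_A M hsm)

/-- The permutation lattice `F` of the resolution. -/
abbrev s56gd_F : Rep.{0} ℤ (s56gd_K0 M hsm).Γ := la_F (s56gd_A M hsm)

/-- `M` as a module over the local Galois group. -/
abbrev s56gd_N : Type := tl_Act (s56gw_res M q)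

/-- `M' = M^*(1)` as a module over the local Galois group. -/
abbrev s56gd_N' : Type := tl_Act (s56gw_res (s56gw_dual M) q)

/-- `R` as a module over the local Galois group. -/
abbrev s56gd_Rl : Type := dm_Yl (s56gd_pi0 M hsm) q (s56gd_R M hsm)

/-- `F` as a module over the local Galois group. -/
abbrev s56gd_Fl : Type := dm_Yl (s56gd_pi0 M hsm) q (s56gd_F M hsm)

/-- `T_R^q = Hom(R, (ℚ̄_q)ˣ)`. -/
abbrev s56gd_TRl : Type := dm_Tl (s56gd_pi0 M hsm) q (s56gd_R M hsm)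

/-- `T_F^q = Hom(F, (ℚ̄_q)ˣ)`. -/
abbrev s56gd_TFl : Type := dm_Tl (s56gd_pi0 M hsm) q (s56gd_F M hsm)

/-- **The local Hom-side sequence** `0 → M → T_F^q → T_R^q → 0`. -/
def s56gd_Eloc : LvSES (primeLocalGaloisGroup q) (s56gd_N M q) (s56gd_TFl M hsm q)
    (s56gd_TRl M hsm q) :=
  dm_Eloc {pPrime p} (Finset.mem_singleton_self _) M (s56gd_pi0 M hsm) (s56gd_A M hsm)
    (s56gd_e M hsm) (s56gd_he M hsm) (s56gd_zeta_spec p) q

/-- The kernel of `π₀` contains a level. -/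
theorem s56gd_smooth_Yl (Y : Rep.{0} ℤ (s56gd_K0 M hsm).Γ) :
    (tl_levelsLoc q).IsSmooth (dm_Yl (s56gd_pi0 M hsm) q Y) := by
  intro y
  refine ⟨(s56gd_K0 M hsm).L.fixingSubgroup.comap (primeLocalToGlobal q),
    ⟨_, ⟨(s56gd_K0 M hsm).L, inferInstance, rfl⟩, rfl⟩, fun u hu => ?_⟩
  have h1 : (s56gd_pi0 M hsm) (primeLocalToGlobal q u) = 1 := by
    rw [← MonoidHom.mem_ker]
    show primeLocalToGlobal q u ∈ (AlgEquiv.restrictNormalHom (s56gd_K0 M hsm).L).ker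
    rw [tl_ker_restrictNormalHom]
    exact hu
  rw [dm_Yl_smul, h1, map_one]
  rfl

theorem s56gd_smooth_TFl : (tl_levelsLoc q).IsSmooth (s56gd_TFl M hsm q) :=
  haveI := dm_finite_A M (s56gd_A M hsm) (s56gd_e M hsm)
  LvHom.isSmooth _ (s56gd_smooth_Yl M hsm q _) (tl_isSmooth_locUnits q)
    (dm_fg_of_free (la_free_F (s56gd_A M hsm)))

theorem s56gd_smooth_TRl : (tl_levelsLoc q).IsSmooth (s56gd_TRl M hsm q) :=
  haveI := dm_finite_A M (s56gd_A M hsm) (s56gd_e M hsm)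
  LvHom.isSmooth _ (s56gd_smooth_Yl M hsm q _) (tl_isSmooth_locUnits q)
    (dm_fg_of_free (la_free_R (s56gd_A M hsm)))

/-- The augmentation `F → M'`. -/
def s56gd_aug : (s56gd_F M hsm).V →+ (s56gw_dual M).V :=
  (s56gd_e M hsm).toAddMonoidHom.comp
    ((la_π (s56gd_A M hsm)).hom : (s56gd_F M hsm).V →+ (s56gd_A M hsm).V)

theorem s56gd_aug_apply (f : (s56gd_F M hsm).V) :
    s56gd_aug M hsm f = s56gd_e M hsm ((la_π (s56gd_A M hsm)).hom f) := rfl

theorem s56gd_aug_equiv (σ : GQ) (f : (s56gd_F M hsm).V) :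
    s56gd_aug M hsm ((s56gd_F M hsm).ρ ((s56gd_pi0 M hsm) σ) f) =
      (s56gw_dual M).ρ σ (s56gd_aug M hsm f) := by
  rw [s56gd_aug_apply, s56gd_aug_apply, Rep.hom_comm_apply, s56gd_he]

theorem s56gd_aug_surjective : Function.Surjective (s56gd_aug M hsm) := by
  intro m
  obtain ⟨f, hf⟩ := la_π_surjective (s56gd_A M hsm) ((s56gd_e M hsm).symm m)
  exact ⟨f, by rw [s56gd_aug_apply, hf, AddEquiv.apply_symm_apply]⟩

theorem s56gd_aug_exact (f : (s56gd_F M hsm).V) :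
    s56gd_aug M hsm f = 0 ↔ ∃ r : (s56gd_R M hsm).V, (la_ι (s56gd_A M hsm)).hom r = f := by
  constructor
  · intro hf
    rw [s56gd_aug_apply, AddEquiv.map_eq_zero_iff] at hf
    exact dm_la_exact (s56gd_A M hsm) hf
  · rintro ⟨r, rfl⟩
    rw [s56gd_aug_apply, dm_la_π_ι, map_zero]

/-- **The local lattice-side sequence** `0 → R → F → M' → 0`. -/
def s56gd_Lloc : LvSES (primeLocalGaloisGroup q) (s56gd_Rl M hsm q) (s56gd_Fl M hsm q)
    (s56gd_N' M q) where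
  i := ((la_ι (s56gd_A M hsm)).hom : (s56gd_R M hsm).V →+ (s56gd_F M hsm).V)
  π := s56gd_aug M hsm
  i_equiv g r := Rep.hom_comm_apply (la_ι (s56gd_A M hsm))
    ((s56gd_pi0 M hsm) (primeLocalToGlobal q g)) r
  π_equiv g f := s56gd_aug_equiv M hsm (primeLocalToGlobal q g) f
  i_inj := dm_la_ι_injective (s56gd_A M hsm)
  π_surj := s56gd_aug_surjective M hsm
  exact := s56gd_aug_exact M hsm

theorem s56gd_smooth_Fl : (tl_levelsLoc q).IsSmooth (s56gd_Fl M hsm q) :=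
  s56gd_smooth_Yl M hsm q _

/-- The coefficient morphism `R → (ℚ̄_q)ˣ` of an invariant homomorphism. -/
def s56gd_coef (t : lvH0 (G := primeLocalGaloisGroup q) (s56gd_TRl M hsm q)) :
    LvMor (tl_levelsLoc q) (s56gd_Rl M hsm q) (tl_levelsLoc q) (tl_locUnits q) :=
  LvMor.ofCoeff (tl_levelsLoc q) (LvHom.toHom (t : s56gd_TRl M hsm q))
    (fun g y => (LvHom.mem_lvH0_iff (t : s56gd_TRl M hsm q)).1 t.2 g y)

/-- `t ⋆ z = t_* z ∈ H²(G_q, (ℚ̄_q)ˣ)` for `t ∈ Hom_{G_q}(R, (ℚ̄_q)ˣ)`, `z ∈ H²(G_q, R)`. -/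
def s56gd_star (t : lvH0 (G := primeLocalGaloisGroup q) (s56gd_TRl M hsm q))
    (z : lvH2 (tl_levelsLoc q) (s56gd_Rl M hsm q)) : lvH2 (tl_levelsLoc q) (tl_locUnits q) :=
  (s56gd_coef M hsm q t).H2 z

/-- `δ⁰ : Hom_{G_q}(R, (ℚ̄_q)ˣ) → H¹(G_q, M)`. -/
def s56gd_d0 : lvH0 (G := primeLocalGaloisGroup q) (s56gd_TRl M hsm q) →+
    lvH1 (tl_levelsLoc q) (s56gd_N M q) :=
  (s56gd_Eloc M hsm q).δ0 (tl_levelsLoc q) (s56gd_smooth_TFl M hsm q)

/-- `δ¹ : H¹(G_q, M') → H²(G_q, R)`. -/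
def s56gd_d1 : lvH1 (tl_levelsLoc q) (s56gd_N' M q) →+
    lvH2 (tl_levelsLoc q) (s56gd_Rl M hsm q) :=
  (s56gd_Lloc M hsm q).δ1 (tl_levelsLoc q) (s56gd_smooth_Fl M hsm q)

end LvObjects

end

end Fermat.Agent.S56
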