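import Fermat.Agent.S56.GW.Dual.D4.Bridge2
import Fermat.Agent.S56.GW.Dual.Inv.Seam
import Fermat.Agent.S56.GW.Dual.D3.Fin
import Fermat.Agent.S56.GW.Dual.D6.Final
import Fermat.Agent.S56.GW.Dual.D7.Main

/-!
# S56 / [GW-DUAL]: the final assembly (prefix `s56gd_`)

`s56gd_final : s56gd_Y2_stmt → s56gd_X1_stmt → s56gd_X2_stmt → s56gw_Dual_stmt`: the internal
duality seam of [GW] from the three remaining global seams of `Dual/Global.lean`
([Y2] classes of `ker(i_*)` come from global classes of `M'`; [X1], [X2] global classes of `M` as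
pairs `(ψ, φ_F)`).  Closed cells: [D1] `s56gdi_main`, [D3] `s56gdl_main`, [D4] `s56gdr_dual_of_cells`,
[D6] `s56gdc_rec`, [D7] `s56gdm_main`.
-/

set_option autoImplicit false

namespace Fermat.Agent.S56

/-- **[GW-DUAL]** from the three remaining seams. -/
theorem s56gd_final (hY2 : s56gd_Y2_stmt) (hX1 : s56gd_X1_stmt) (hX2 : s56gd_X2_stmt) :
    s56gw_Dual_stmt :=
  s56gdr_dual_of_cells s56gdi_main s56gdl_main (s56gdc_rec hX1) (s56gdm_main hY2 hX2)

end Fermat.Agent.S56
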