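import Fermat.Agent.S56.GW.Seams
import Fermat.Agent.S55.Recip.S55OfRecip
import Fermat.Agent.S55.Recip.RecipMain
import Fermat.Agent.S55.Recip.RecipInner
import Fermat.Agent.S55.Dual.LocalVanish

/-!
# S56 / [GW-DUAL]: the base data (prefix `s56gd_`)

* `s56gd_zeta p` : a fixed primitive `p`-th root of unity of `ℚ̄`;
* `s56gd_K0 M` : the canonical base field of `M` (kernel field of `M` composed with `ℚ(μ_p)`),
  finite Galois over `ℚ`, trivialising `M`, `cycloChar p` and `M' = M^*(1)`; unramified outside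
  every `S ∋ p` outside of which `M` is unramified;
* `s56gd_A M`, `s56gd_e`, `s56gd_he` : `M'` as a `ℤ`-representation of `Δ₀ = Gal(K0/ℚ)`;
  `la_R`, `la_F` of it is THE lattice resolution used everywhere in [GW-DUAL];
* `s56gd_seam hp2 S hpS : du_Seam p S` : the concrete seam of S55 and `s56gd_E1` : the existence
  theorem in exponent `p` for it.
-/

set_option autoImplicit false

open CategoryTheory groupCohomology ExtCitation

namespace Fermat.Agent.S56

open Fermat.Agent.S55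

local notation "Qbar" => AlgebraicClosure ℚ
local notation "GQ" => (AlgebraicClosure ℚ ≃ₐ[ℚ] AlgebraicClosure ℚ)

variable {p : ℕ} [Fact p.Prime]

/-- The fixed primitive `p`-th root of unity. -/
noncomputable def s56gd_zeta (p : ℕ) [Fact p.Prime] : Qbar := (du_exists_zeta p).choose

theorem s56gd_zeta_spec (p : ℕ) [Fact p.Prime] : IsPrimitiveRoot (s56gd_zeta p) p :=
  (du_exists_zeta p).choose_spec

/-- **The reciprocity law** of S55 (the content of `Fermat.Agent.S55.result`). -/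
theorem s56gd_recip (hp2 : p ≠ 2) : rc_so_Recip p :=
  rc_rm_outer hp2 (fun hpT' a K ζ₁ hζ₁ hKζ l' hl' ζl hζl _ _ hK' hlK hnp u hk =>
    rc_rm_inner p hp2 hpT' a K ζ₁ hζ₁ hKζ l' hl' ζl hζl hK' hlK hnp u hk)

/-- **The concrete seam** of S55 for `S ∋ p`. -/
noncomputable def s56gd_seam (hp2 : p ≠ 2) (S : Finset Nat.Primes) (hpS : pPrime p ∈ S) :
    du_Seam p S :=
  rc_so_seam hp2 (s56gd_recip hp2) hpS

open Classical in
/-- **The existence theorem in exponent `p`** for the concrete seam: every level `K` has a level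
`L ≥ K` all of whose norms to `K` are `p`-th multiples. -/
theorem s56gd_E1 (hp2 : p ≠ 2) (S : Finset Nat.Primes) (hpS : pPrime p ∈ S) (K : du_Lev S) :
    ∃ (K₁ L : du_Lev S) (_ : K ≤ K₁) (h : K₁ ≤ L),
      ∀ c : ((s56gd_seam hp2 S hpS).dat L).C.V, ∃ d : ((s56gd_seam hp2 S hpS).dat K₁).C.V,
        (∑ g ∈ Finset.univ.filter (fun g : L.Γ => g ∈ L.rel K₁),
          ((s56gd_seam hp2 S hpS).dat L).C.ρ g c) = (s56gd_seam hp2 S hpS).tC h (p • d) := by
  obtain ⟨K₁, L, hK, h, H⟩ :=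
    ia_hE1 p hp2 ⟨_, hpS⟩ hpS (rc_so_G4 hp2 (s56gd_recip hp2)) K
  refine ⟨K₁, L, hK, h, fun c => ?_⟩
  obtain ⟨d, hd⟩ := H c
  refine ⟨d, ?_⟩
  rw [← e2_nrm_apply]
  exact hd

/-! ### The canonical base field -/

section Base

variable (M : Rep.{0} (ZMod p) GQ) [FiniteDimensional (ZMod p) M]

/-- The twisted dual of the trivial character: its kernel field is `ℚ(μ_p)`. -/
noncomputable abbrev s56gd_T (p : ℕ) [Fact p.Prime] : Rep.{0} (ZMod p) GQ :=
  (Rep.trivial (ZMod p) GQ (ZMod p)).dualTwist (cycloChar p)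

theorem s56gd_T_smooth (p : ℕ) [Fact p.Prime] : s56gw_Smooth (s56gd_T p) :=
  tl_dualTwist_smooth (Rep.trivial (ZMod p) GQ (ZMod p))
    (fun _ => ⟨⊥, inferInstance, fun _ _ => rfl⟩)

instance s56gd_T_finite (p : ℕ) [Fact p.Prime] : FiniteDimensional (ZMod p) (s56gd_T p) :=
  haveI : FiniteDimensional (ZMod p) (Rep.trivial (ZMod p) GQ (ZMod p)) :=
    inferInstanceAs (FiniteDimensional (ZMod p) (ZMod p))
  inferInstance

/-- The mod `p` cyclotomic character is trivial on the kernel of `s56gd_T p`. -/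
theorem s56gd_chi_of_T {σ : GQ} (hT' : (s56gd_T p).ρ σ = 1) : cycloChar p σ = 1 := by
  have h := congrArg (fun φ : Module.End (ZMod p) (s56gd_T p) =>
    φ (LinearMap.id : Module.Dual (ZMod p) (Rep.trivial (ZMod p) GQ (ZMod p)))) hT'
  beta_reduce at h
  rw [Rep.dualTwist_ρ_apply] at h
  have h' := congrArg
    (fun f : Module.Dual (ZMod p) (Rep.trivial (ZMod p) GQ (ZMod p)) => f (1 : ZMod p)) h
  simp only [LinearMap.smul_apply, LinearMap.comp_apply, LinearMap.id_apply,
    Module.End.one_apply] at h'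
  apply Units.ext
  have hT1 : (Rep.trivial (ZMod p) GQ (ZMod p)).ρ σ⁻¹ (1 : ZMod p) = 1 := rfl
  rw [hT1, smul_eq_mul, mul_one] at h'
  exact h'

/-- A finite Galois extension of `ℚ` inside `ℚ̄` (a "plain level": no ramification condition). -/
structure s56gd_Fld where
  L : IntermediateField ℚ Qbar
  fin : FiniteDimensional ℚ L
  nor : Normal ℚ L

namespace s56gd_Fld

instance (a : s56gd_Fld) : FiniteDimensional ℚ a.L := a.fin
instance (a : s56gd_Fld) : Normal ℚ a.L := a.nor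
instance : LE s56gd_Fld := ⟨fun a b => a.L ≤ b.L⟩

lemma le_def {a b : s56gd_Fld} : a ≤ b ↔ a.L ≤ b.L := Iff.rfl

/-- The Galois group. -/
abbrev Γ (a : s56gd_Fld) : Type := a.L ≃ₐ[ℚ] a.L

/-- The projection `GQ → Γ`. -/
noncomputable def q (a : s56gd_Fld) : GQ →* a.Γ := AlgEquiv.restrictNormalHom a.L

/-- The compositum. -/
noncomputable def sup (a b : s56gd_Fld) : s56gd_Fld where
  L := a.L ⊔ b.L
  fin := IntermediateField.finiteDimensional_sup a.L b.L
  nor := @IntermediateField.normal_sup ℚ Qbar _ _ _ a.L b.L a.nor b.nor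

lemma le_sup_left (a b : s56gd_Fld) : a ≤ sup a b := (_root_.le_sup_left : a.L ≤ a.L ⊔ b.L)
lemma le_sup_right (a b : s56gd_Fld) : b ≤ sup a b := (_root_.le_sup_right : b.L ≤ a.L ⊔ b.L)

/-- A level of the seam as a plain level. -/
def ofLev {S : Finset Nat.Primes} (a : du_Lev S) : s56gd_Fld := ⟨a.L, a.unr.1, a.nor⟩

end s56gd_Fld

variable (hsm : s56gw_Smooth M)

/-- **The canonical base field** of `M`: the kernel field of `M` composed with `ℚ(μ_p)`. -/
noncomputable def s56gd_K0 : s56gd_Fld where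
  L := tl_kernelField M ⊔ tl_kernelField (s56gd_T p)
  fin :=
    haveI := tl_finiteDimensional_kernelField M hsm
    haveI := tl_finiteDimensional_kernelField (s56gd_T p) (s56gd_T_smooth p)
    IntermediateField.finiteDimensional_sup _ _
  nor :=
    @IntermediateField.normal_sup ℚ Qbar _ _ _ (tl_kernelField M) (tl_kernelField (s56gd_T p))
      (tl_isGalois_kernelField M hsm).to_normal
      (tl_isGalois_kernelField (s56gd_T p) (s56gd_T_smooth p)).to_normal

theorem s56gd_K0_rho {σ : GQ} (hσ : σ ∈ (s56gd_K0 M hsm).L.fixingSubgroup) : M.ρ σ = 1 :=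
  tl_rho_eq_one_of_mem_fixingSubgroup_kernelField M hsm
    (IntermediateField.fixingSubgroup_antitone (le_sup_left : _ ≤ (s56gd_K0 M hsm).L) hσ)

theorem s56gd_K0_chi {σ : GQ} (hσ : σ ∈ (s56gd_K0 M hsm).L.fixingSubgroup) :
    cycloChar p σ = 1 :=
  s56gd_chi_of_T (tl_rho_eq_one_of_mem_fixingSubgroup_kernelField (s56gd_T p) (s56gd_T_smooth p)
    (IntermediateField.fixingSubgroup_antitone (le_sup_right : _ ≤ (s56gd_K0 M hsm).L) hσ))

theorem s56gd_K0_dual {σ : GQ} (hσ : σ ∈ (s56gd_K0 M hsm).L.fixingSubgroup)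
    (x : (s56gw_dual M).V) : (s56gw_dual M).ρ σ x = x := by
  rw [Rep.dualTwist_ρ_apply, s56gd_K0_chi M hsm hσ, s56gd_K0_rho M hsm (inv_mem hσ),
    Units.val_one, one_smul]
  rfl

theorem s56gd_K0_unr (S : Finset Nat.Primes) (hpS : pPrime p ∈ S) (hur : s56gw_UnrOut S M) :
    (s56gd_K0 M hsm).L.IsUnramifiedOutside S :=
  (tl_isUnramifiedOutside_kernelField M hsm S hur).sup
    (tl_isUnramifiedOutside_kernelField (s56gd_T p) (s56gd_T_smooth p) S
      (tl_dualTwist_unramified (Rep.trivial (ZMod p) GQ (ZMod p)) S hpS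
        (fun _ _ _ _ _ _ => rfl)))

/-- **`M' = M^*(1)` as a `ℤ`-representation of `Δ₀ = Gal(K0/ℚ)`.** -/
noncomputable def s56gd_A : Rep.{0} ℤ (s56gd_K0 M hsm).Γ :=
  tl_sf_descRep (s56gw_dual M) (s56gd_K0 M hsm).L (fun _ hσ x => s56gd_K0_dual M hsm hσ x)

/-- The underlying additive group of `s56gd_A` is `M'`. -/
noncomputable def s56gd_e : (s56gd_A M hsm).V ≃+ (s56gw_dual M).V :=
  tl_sf_descE (s56gw_dual M) (s56gd_K0 M hsm).L (fun _ hσ x => s56gd_K0_dual M hsm hσ x)

theorem s56gd_he (σ : GQ) (a : (s56gd_A M hsm).V) :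
    s56gd_e M hsm ((s56gd_A M hsm).ρ ((s56gd_K0 M hsm).q σ) a) =
      (s56gw_dual M).ρ σ (s56gd_e M hsm a) :=
  tl_sf_descE_apply (s56gw_dual M) (s56gd_K0 M hsm).L
    (fun _ hσ x => s56gd_K0_dual M hsm hσ x) σ a

end Base

end Fermat.Agent.S56
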