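import Fermat.Agent.S56.GW.Dual.Local
import Fermat.Agent.S55.Level.ShaSeq

/-!
# S56 / [GW-DUAL], cell [D2]: the local pairing `B_q` (prefix `s56gd_`)

For `I : s56gd_LocInv p q` (seam [D1]) the pairing
`s56gd_Bq M hsm q I : H¹(G_q, M) →+ H¹(G_q, M') →+ ℚ/ℤ` (level cohomology), characterised by
`s56gd_Bq_spec : B (δ⁰ t) y = I.inv ⟨t ⋆ δ¹ y, _⟩` for `t ∈ Hom_{G_q}(R, (ℚ̄_q)ˣ)`.
-/

set_option autoImplicit false
set_option linter.unusedSectionVars false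

open CategoryTheory groupCohomology ExtCitation

namespace Fermat.Agent.S56

open Fermat.Agent.S55

local notation "Qbar" => AlgebraicClosure ℚ
local notation "GQ" => (AlgebraicClosure ℚ ≃ₐ[ℚ] AlgebraicClosure ℚ)

noncomputable section

variable {p : ℕ} [Fact p.Prime] (M : Rep.{0} (ZMod p) GQ) [FiniteDimensional (ZMod p) M]
  (hsm : s56gw_Smooth M) (q : Nat.Primes)

/-- `p` kills a `ZMod p`-representation. -/
theorem s56gd_nsmul_act {G : Type} [Group G] (V : Rep.{0} (ZMod p) G) (a : tl_Act V) :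
    p • a = 0 := by
  have h : (p : ZMod p) • a = 0 := by rw [ZMod.natCast_self, zero_smul]
  rw [Nat.cast_smul_eq_nsmul] at h
  exact h

/-- `p` kills `H¹(G_q, M')`. -/
theorem s56gd_nsmul_H1N' (y : lvH1 (tl_levelsLoc q) (s56gd_N' M q)) : p • y = 0 :=
  lvH1_nsmul_eq_zero (s56gd_nsmul_act (s56gw_res (s56gw_dual M) q)) y

/-- `p` kills `H¹(G_q, M)`. -/
theorem s56gd_nsmul_H1N (x : lvH1 (tl_levelsLoc q) (s56gd_N M q)) : p • x = 0 :=
  lvH1_nsmul_eq_zero (s56gd_nsmul_act (s56gw_res M q)) x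

/-- `p` kills `δ¹ y`. -/
theorem s56gd_nsmul_d1 (y : lvH1 (tl_levelsLoc q) (s56gd_N' M q)) :
    p • s56gd_d1 M hsm q y = 0 := by
  rw [← map_nsmul, s56gd_nsmul_H1N', map_zero]

/-- `t ⋆ z` as an additive map in `z`. -/
def s56gd_starHom (t : lvH0 (G := primeLocalGaloisGroup q) (s56gd_TRl M hsm q)) :
    lvH2 (tl_levelsLoc q) (s56gd_Rl M hsm q) →+ lvH2 (tl_levelsLoc q) (tl_locUnits q) :=
  (s56gd_coef M hsm q t).H2

theorem s56gd_starHom_apply (t : lvH0 (G := primeLocalGaloisGroup q) (s56gd_TRl M hsm q))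
    (z : lvH2 (tl_levelsLoc q) (s56gd_Rl M hsm q)) :
    s56gd_starHom M hsm q t z = s56gd_star M hsm q t z := rfl

theorem s56gd_star_add_left (t t' : lvH0 (G := primeLocalGaloisGroup q) (s56gd_TRl M hsm q))
    (z : lvH2 (tl_levelsLoc q) (s56gd_Rl M hsm q)) :
    s56gd_star M hsm q (t + t') z = s56gd_star M hsm q t z + s56gd_star M hsm q t' z := by
  obtain ⟨c, rfl⟩ := lvH2mk_surjective z
  show lvH2mk _ _ ((s56gd_coef M hsm q (t + t')).Z2 c) =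
    lvH2mk _ _ ((s56gd_coef M hsm q t).Z2 c) + lvH2mk _ _ ((s56gd_coef M hsm q t').Z2 c)
  rw [← map_add]
  congr 1

theorem s56gd_star_zero_left (z : lvH2 (tl_levelsLoc q) (s56gd_Rl M hsm q)) :
    s56gd_star M hsm q 0 z = 0 := by
  have h := s56gd_star_add_left M hsm q 0 0 z
  rw [add_zero] at h
  exact (add_eq_left.1 h.symm)

/-- `t ⋆ δ¹ y` is killed by `p`. -/
theorem s56gd_star_d1_mem (t : lvH0 (G := primeLocalGaloisGroup q) (s56gd_TRl M hsm q))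
    (y : lvH1 (tl_levelsLoc q) (s56gd_N' M q)) :
    s56gd_star M hsm q t (s56gd_d1 M hsm q y) ∈
      fd_pPrimary p (lvH2 (tl_levelsLoc q) (tl_locUnits q)) := by
  refine ⟨1, ?_⟩
  rw [pow_one, ← s56gd_starHom_apply, ← map_nsmul, s56gd_nsmul_d1, map_zero]

variable (I : s56gd_LocInv p q)

/-- The pre-pairing `(t, y) ↦ inv_q (t ⋆ δ¹ y)` for fixed `t`. -/
def s56gd_pre₁ (t : lvH0 (G := primeLocalGaloisGroup q) (s56gd_TRl M hsm q)) :
    lvH1 (tl_levelsLoc q) (s56gd_N' M q) →+ AddCircle (1 : ℚ) :=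
  I.inv.comp (AddMonoidHom.codRestrict
    ((s56gd_starHom M hsm q t).comp (s56gd_d1 M hsm q))
    (fd_pPrimary p (lvH2 (tl_levelsLoc q) (tl_locUnits q)))
    (fun y => s56gd_star_d1_mem M hsm q t y))

theorem s56gd_pre₁_apply (t : lvH0 (G := primeLocalGaloisGroup q) (s56gd_TRl M hsm q))
    (y : lvH1 (tl_levelsLoc q) (s56gd_N' M q)) :
    s56gd_pre₁ M hsm q I t y =
      I.inv ⟨s56gd_star M hsm q t (s56gd_d1 M hsm q y), s56gd_star_d1_mem M hsm q t y⟩ := rfl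

/-- The pre-pairing `Hom_{G_q}(R, (ℚ̄_q)ˣ) →+ H¹(G_q, M') →+ ℚ/ℤ`. -/
def s56gd_pre : lvH0 (G := primeLocalGaloisGroup q) (s56gd_TRl M hsm q) →+
    lvH1 (tl_levelsLoc q) (s56gd_N' M q) →+ AddCircle (1 : ℚ) :=
  AddMonoidHom.mk' (s56gd_pre₁ M hsm q I) (fun t t' => by
    refine DFunLike.ext _ _ (fun y => ?_)
    rw [AddMonoidHom.add_apply, s56gd_pre₁_apply, s56gd_pre₁_apply, s56gd_pre₁_apply, ← map_add]
    congr 1)

theorem s56gd_pre_apply (t : lvH0 (G := primeLocalGaloisGroup q) (s56gd_TRl M hsm q))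
    (y : lvH1 (tl_levelsLoc q) (s56gd_N' M q)) :
    s56gd_pre M hsm q I t y =
      I.inv ⟨s56gd_star M hsm q t (s56gd_d1 M hsm q y), s56gd_star_d1_mem M hsm q t y⟩ := rfl

/-- `δ⁰` is surjective (local vanishing `dm_lv_V1`). -/
theorem s56gd_d0_surjective : Function.Surjective (s56gd_d0 M hsm q) := by
  intro x
  have h0 : ((s56gd_Eloc M hsm q).mi (tl_levelsLoc q)).H1 x = 0 :=
    dm_lv_V1 (s56gd_pi0 M hsm) q (s56gd_A M hsm) _
  exact ((s56gd_Eloc M hsm q).exact_H1A (tl_levelsLoc q) (s56gd_smooth_TFl M hsm q) x).1 h0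

/-- The coefficient morphism `F → (ℚ̄_q)ˣ` of an invariant homomorphism. -/
def s56gd_coefF (s : lvH0 (G := primeLocalGaloisGroup q) (s56gd_TFl M hsm q)) :
    LvMor (tl_levelsLoc q) (s56gd_Fl M hsm q) (tl_levelsLoc q) (tl_locUnits q) :=
  LvMor.ofCoeff (tl_levelsLoc q) (LvHom.toHom (s : s56gd_TFl M hsm q))
    (fun g y => (LvHom.mem_lvH0_iff (s : s56gd_TFl M hsm q)).1 s.2 g y)

/-- `(s ∘ ι) ⋆ z = s_* (ι_* z)`. -/
theorem s56gd_star_restrict (s : lvH0 (G := primeLocalGaloisGroup q) (s56gd_TFl M hsm q))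
    (z : lvH2 (tl_levelsLoc q) (s56gd_Rl M hsm q)) :
    s56gd_star M hsm q (((s56gd_Eloc M hsm q).mπ (tl_levelsLoc q)).H0 s) z =
      (s56gd_coefF M hsm q s).H2 (((s56gd_Lloc M hsm q).mi (tl_levelsLoc q)).H2 z) := by
  obtain ⟨c, rfl⟩ := lvH2mk_surjective z
  rfl

/-- The kernel of `δ⁰` pairs to zero. -/
theorem s56gd_pre_eq_zero_of_d0 (t : lvH0 (G := primeLocalGaloisGroup q) (s56gd_TRl M hsm q))
    (ht : s56gd_d0 M hsm q t = 0) : s56gd_pre M hsm q I t = 0 := by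
  obtain ⟨s, rfl⟩ :=
    ((s56gd_Eloc M hsm q).exact_H0C (tl_levelsLoc q) (s56gd_smooth_TFl M hsm q) t).1 ht
  refine DFunLike.ext _ _ (fun y => ?_)
  rw [s56gd_pre_apply, AddMonoidHom.zero_apply]
  have h1 : ((s56gd_Lloc M hsm q).mi (tl_levelsLoc q)).H2 (s56gd_d1 M hsm q y) = 0 :=
    ((s56gd_Lloc M hsm q).exact_H2A (tl_levelsLoc q) (s56gd_smooth_Fl M hsm q) _).2 ⟨y, rfl⟩
  have h2 : s56gd_star M hsm q (((s56gd_Eloc M hsm q).mπ (tl_levelsLoc q)).H0 s)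
      (s56gd_d1 M hsm q y) = 0 := by
    rw [s56gd_star_restrict, h1, map_zero]
  have h3 : (⟨_, s56gd_star_d1_mem M hsm q
      (((s56gd_Eloc M hsm q).mπ (tl_levelsLoc q)).H0 s) y⟩ :
      ↥(fd_pPrimary p (lvH2 (tl_levelsLoc q) (tl_locUnits q)))) = 0 := Subtype.ext h2
  rw [h3, map_zero]

/-- **The local pairing** `B_q : H¹(G_q, M) →+ H¹(G_q, M') →+ ℚ/ℤ` (level cohomology). -/
def s56gd_Bq : lvH1 (tl_levelsLoc q) (s56gd_N M q) →+
    lvH1 (tl_levelsLoc q) (s56gd_N' M q) →+ AddCircle (1 : ℚ) :=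
  lvDescend (s56gd_d0 M hsm q) (s56gd_d0_surjective M hsm q) (s56gd_pre M hsm q I)
    (fun t ht => s56gd_pre_eq_zero_of_d0 M hsm q I t ht)

/-- **The defining property of `B_q`.** -/
theorem s56gd_Bq_spec (t : lvH0 (G := primeLocalGaloisGroup q) (s56gd_TRl M hsm q))
    (y : lvH1 (tl_levelsLoc q) (s56gd_N' M q)) :
    s56gd_Bq M hsm q I (s56gd_d0 M hsm q t) y =
      I.inv ⟨s56gd_star M hsm q t (s56gd_d1 M hsm q y), s56gd_star_d1_mem M hsm q t y⟩ := by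
  have h := lvDescend_apply (s56gd_d0 M hsm q) (s56gd_d0_surjective M hsm q)
    (s56gd_pre M hsm q I) (fun t ht => s56gd_pre_eq_zero_of_d0 M hsm q I t ht) t
  exact DFunLike.congr_fun h y

/-- `p · B_q = 0`. -/
theorem s56gd_nsmul_Bq (x : lvH1 (tl_levelsLoc q) (s56gd_N M q))
    (y : lvH1 (tl_levelsLoc q) (s56gd_N' M q)) : p • s56gd_Bq M hsm q I x y = 0 := by
  rw [← map_nsmul, s56gd_nsmul_H1N', map_zero]

end

end Fermat.Agent.S56
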