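import Fermat.Agent.S56.GW.Dual.Pairing
import Fermat.Agent.S55.Trans.H2Bridge

/-!
# S56 / [GW-DUAL]: the cell seams in level cohomology (prefix `s56gd_`)

* `s56gd_LD_stmt`  : SEAM [D3], local duality (finiteness, left and right non-degeneracy of `B_q`);
* `s56gd_Rec_stmt` : SEAM [D6], global reciprocity;
* `s56gd_ME_stmt`  : SEAM [D7], middle exactness of Poitou–Tate;
* `s56gd_Bridge_stmt` : SEAM [D4], `s56gw_Dual_stmt` from [D1], [D3], [D6], [D7].
-/

set_option autoImplicit false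
set_option linter.unusedSectionVars false

open CategoryTheory groupCohomology ExtCitation

namespace Fermat.Agent.S56

open Fermat.Agent.S55

local notation "Qbar" => AlgebraicClosure ℚ
local notation "GQ" => (AlgebraicClosure ℚ ≃ₐ[ℚ] AlgebraicClosure ℚ)

noncomputable section

section

variable {p : ℕ} [Fact p.Prime] (M : Rep.{0} (ZMod p) GQ)

/-- The global continuous classes unramified outside `S`, in level cohomology. -/
abbrev s56gd_HS (S : Finset Nat.Primes) : Type := lvH1 (tl_levelsS S) (tl_Act M)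

/-- The local continuous classes at `q`, in level cohomology. -/
abbrev s56gd_Hq (q : Nat.Primes) : Type := lvH1 (tl_levelsLoc q) (s56gd_N M q)

/-- Localisation `H¹(G_S, M) → H¹(G_q, M)` in level cohomology. -/
def s56gd_lvloc (S : Finset Nat.Primes) (q : Nat.Primes) : s56gd_HS M S →+ s56gd_Hq M q :=
  (tl_locMor S (primeLocalToGlobal q) M).H1

end

/-- **SEAM [D3]: local duality.**  `B_q` is a perfect pairing of finite groups. -/
def s56gd_LD_stmt : Prop :=
  ∀ (p : ℕ) [Fact p.Prime], p ≠ 2 →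
  ∀ (M : Rep.{0} (ZMod p) GQ) [FiniteDimensional (ZMod p) M] (hsm : s56gw_Smooth M)
    (q : Nat.Primes) (I : s56gd_LocInv p q),
    Finite (s56gd_Hq M q) ∧ Finite (s56gd_Hq (s56gw_dual M) q) ∧
    (∀ x : s56gd_Hq M q, (∀ y, s56gd_Bq M hsm q I x y = 0) → x = 0) ∧
    (∀ y : s56gd_Hq (s56gw_dual M) q, (∀ x, s56gd_Bq M hsm q I x y = 0) → y = 0)

/-- **SEAM [D6]: global reciprocity.** -/
def s56gd_Rec_stmt : Prop :=
  ∀ (p : ℕ) [Fact p.Prime], p ≠ 2 →
  ∀ (M : Rep.{0} (ZMod p) GQ) [FiniteDimensional (ZMod p) M] (hsm : s56gw_Smooth M)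
    (I : ∀ q : Nat.Primes, s56gd_LocInv p q)
    (S : Finset Nat.Primes), pPrime p ∈ S → s56gw_UnrOut S M →
    ∀ (x : s56gd_HS M S) (y : s56gd_HS (s56gw_dual M) S),
      ∑ q ∈ S, s56gd_Bq M hsm q (I q) (s56gd_lvloc M S q x)
        (s56gd_lvloc (s56gw_dual M) S q y) = 0

/-- **SEAM [D7]: middle exactness of Poitou–Tate.** -/
def s56gd_ME_stmt : Prop :=
  ∀ (p : ℕ) [Fact p.Prime], p ≠ 2 →
  ∀ (M : Rep.{0} (ZMod p) GQ) [FiniteDimensional (ZMod p) M] (hsm : s56gw_Smooth M)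
    (I : ∀ q : Nat.Primes, s56gd_LocInv p q)
    (S : Finset Nat.Primes), pPrime p ∈ S → s56gw_UnrOut S M →
    ∀ ξ : ∀ q : Nat.Primes, s56gd_Hq M q,
      (∀ y : s56gd_HS (s56gw_dual M) S,
        ∑ q ∈ S, s56gd_Bq M hsm q (I q) (ξ q) (s56gd_lvloc (s56gw_dual M) S q y) = 0) →
      ∃ x : s56gd_HS M S, ∀ q ∈ S, s56gd_lvloc M S q x = ξ q

/-- **SEAM [D4]: the bridge** from level cohomology to the frozen vocabulary. -/
def s56gd_Bridge_stmt : Prop :=
  s56gd_LocInv_stmt → s56gd_LD_stmt → s56gd_Rec_stmt → s56gd_ME_stmt → s56gw_Dual_stmt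

end

end Fermat.Agent.S56
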